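import Mathlib
import Fermat.Agent.Lib.Cheb.Spec

/-!
# CROSS: Chebotarev's field-crossing step (shared lib CHEB, Tier 2; helper236)

`theorem cross : Spec.CrossStatement`, i.e. `FrobStatement → CycStatement → ChebFiniteStatement`.

For `σ ∈ Gal(L/ℚ)` of order `n` choose a prime `m ≡ 1 mod n` with `m > |disc L|`, put
`M = L(ζ_m)` (`CyclotomicField m L`), extend `σ` to `g ∈ Gal(M/ℚ)` with `g ζ = ζ ^ t`, `t` a
generator of `(ℤ/m)ˣ`.  Then `⟨g⟩` acts faithfully on `ζ`, `CycStatement` gives a prime of `M`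
with Frobenius `g`, and its restriction to `L` has Frobenius `σ`.
-/

set_option autoImplicit false
set_option linter.style.haveILetI false
set_option linter.unusedSectionVars false

namespace Fermat.Agent.Lib.Cheb.H236

open NumberField IntermediateField Polynomial

section Construct

variable (L : Type) [Field L] [NumberField L] (m : ℕ) [hm : Fact m.Prime]

/-- The crossing field `M = L(ζ_m)`. -/
abbrev CrossField : Type := CyclotomicField m L

instance crossNeZero : NeZero m := ⟨hm.out.ne_zero⟩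

/-- the chosen primitive `m`-th root of unity of `M` -/
noncomputable def crossZeta : CrossField L m := IsCyclotomicExtension.zeta m L (CrossField L m)

theorem crossZeta_spec : IsPrimitiveRoot (crossZeta L m) m :=
  IsCyclotomicExtension.zeta_spec m L (CrossField L m)

/-- the image of `L` in `M` -/
noncomputable def imL : IntermediateField ℚ (CrossField L m) :=
  (IsScalarTower.toAlgHom ℚ L (CrossField L m)).fieldRange

/-- `ℚ(ζ)` inside `M` -/
noncomputable def cycQ : IntermediateField ℚ (CrossField L m) :=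
  ℚ⟮crossZeta L m⟯

theorem cycQ_sup_imL : cycQ L m ⊔ imL L m = ⊤ := by
  rw [eq_top_iff]
  rintro x -
  have hx : x ∈ Algebra.adjoin L ({crossZeta L m} : Set (CrossField L m)) := by
    rw [IsCyclotomicExtension.adjoin_primitive_root_eq_top (crossZeta_spec L m)]
    trivial
  induction hx using Algebra.adjoin_induction with
  | mem y hy =>
    rw [Set.mem_singleton_iff] at hy
    subst hy
    exact (le_sup_left : cycQ L m ≤ _) (mem_adjoin_simple_self ℚ _)
  | algebraMap r =>
    exact (le_sup_right : imL L m ≤ _) ⟨r, rfl⟩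
  | add _ _ _ _ hx hy => exact add_mem hx hy
  | mul _ _ _ _ hx hy => exact mul_mem hx hy

/-- `M` is normal over `ℚ`. -/
theorem normal_crossField [IsGalois ℚ L] : Normal ℚ (CrossField L m) := by
  have hN2 : Normal ℚ (imL L m) := by
    have e : L ≃ₐ[ℚ] imL L m :=
      AlgEquiv.ofInjectiveField (IsScalarTower.toAlgHom ℚ L (CrossField L m))
    exact Normal.of_algEquiv e
  haveI : IsCyclotomicExtension {m} ℚ (cycQ L m) :=
    (crossZeta_spec L m).intermediateField_adjoin_isCyclotomicExtension ℚ
  haveI : IsGalois ℚ (cycQ L m) := IsCyclotomicExtension.isGalois {m} ℚ (cycQ L m)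
  have hN1 : Normal ℚ (cycQ L m) := IsGalois.to_normal
  have hN : Normal ℚ (cycQ L m ⊔ imL L m : IntermediateField ℚ (CrossField L m)) :=
    @IntermediateField.normal_sup ℚ (CrossField L m) _ _ _ (cycQ L m) (imL L m) hN1 hN2
  have e : (cycQ L m ⊔ imL L m : IntermediateField ℚ (CrossField L m)) ≃ₐ[ℚ] CrossField L m :=
    (IntermediateField.equivOfEq (cycQ_sup_imL L m)).trans IntermediateField.topEquiv
  exact @Normal.of_algEquiv ℚ _ _ _ _ _ _ _ hN e

theorem isGalois_crossField [IsGalois ℚ L] : IsGalois ℚ (CrossField L m) := by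
  haveI := normal_crossField L m
  exact isGalois_iff.mpr ⟨inferInstance, inferInstance⟩

/-- the degree of `M` over `L` is `m - 1` when `m ∤ disc L` -/
theorem finrank_crossField (hdisc : ¬ (m : ℤ) ∣ discr L) :
    Module.finrank L (CrossField L m) = m - 1 := by
  haveI : IsCyclotomicExtension {m} ℚ (cycQ L m) :=
    (crossZeta_spec L m).intermediateField_adjoin_isCyclotomicExtension ℚ
  haveI : IsGalois ℚ (cycQ L m) := IsCyclotomicExtension.isGalois {m} ℚ (cycQ L m)
  have e : L ≃ₐ[ℚ] imL L m :=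
    AlgEquiv.ofInjectiveField (IsScalarTower.toAlgHom ℚ L (CrossField L m))
  have hd1 : discr (cycQ L m) = (-1) ^ ((m - 1) / 2) * (m : ℤ) ^ (m - 2) :=
    IsCyclotomicExtension.Rat.discr_prime m (cycQ L m)
  have hd2 : discr (imL L m) = discr L := (discr_eq_discr_of_algEquiv L e).symm
  have hcop : IsCoprime (discr (cycQ L m)) (discr (imL L m)) := by
    rw [hd1, hd2]
    have hp : Prime (m : ℤ) := Nat.prime_iff_prime_int.mp hm.out
    have h1 : IsCoprime (m : ℤ) (discr L) := (Prime.coprime_iff_not_dvd hp).mpr hdisc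
    rw [isCoprime_mul_unit_left_left (IsUnit.pow _ (isUnit_one.neg))]
    exact h1.pow_left
  have hdisj := linearDisjoint_of_isGalois_isCoprime_discr (CrossField L m) (cycQ L m) (imL L m)
    hcop
  have h1 := hdisj.finrank_sup
  have h2 : Module.finrank ℚ (cycQ L m) = m - 1 := by
    rw [IsCyclotomicExtension.finrank (n := m) (cycQ L m)
      (Polynomial.cyclotomic.irreducible_rat (NeZero.pos m)), Nat.totient_prime hm.out]
  have h3 : Module.finrank ℚ (imL L m) = Module.finrank ℚ L := (e.toLinearEquiv.finrank_eq).symm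
  have h4 : Module.finrank ℚ (cycQ L m ⊔ imL L m : IntermediateField ℚ (CrossField L m)) =
      Module.finrank ℚ (CrossField L m) := by
    rw [cycQ_sup_imL]
    exact IntermediateField.finrank_top'
  have h5 : Module.finrank ℚ (CrossField L m) =
      Module.finrank ℚ L * Module.finrank L (CrossField L m) :=
    (Module.finrank_mul_finrank ℚ L (CrossField L m)).symm
  rw [h4, h2, h3, h5, mul_comm] at h1
  exact Nat.eq_of_mul_eq_mul_right Module.finrank_pos h1

theorem adjoin_crossZeta_eq_top : L⟮crossZeta L m⟯ = ⊤ :=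
  IntermediateField.adjoin_eq_top_of_algebra L _
    (IsCyclotomicExtension.adjoin_primitive_root_eq_top (crossZeta_spec L m))

/-- the `m`-th cyclotomic polynomial is irreducible over `L` when `m ∤ disc L` -/
theorem irreducible_cyclotomic_of_not_dvd_discr (hdisc : ¬ (m : ℤ) ∣ discr L) :
    Irreducible (cyclotomic m L) := by
  have hζ := crossZeta_spec L m
  have hfin := finrank_crossField L m hdisc
  have hint : IsIntegral L (crossZeta L m) := IsIntegral.of_finite L _
  have hdvd : minpoly L (crossZeta L m) ∣ cyclotomic m L := by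
    apply minpoly.dvd
    have h1 := hζ.isRoot_cyclotomic (NeZero.pos m)
    rw [aeval_def, eval₂_eq_eval_map, map_cyclotomic]
    exact h1
  have hdeg : (minpoly L (crossZeta L m)).natDegree = m - 1 := by
    rw [← hfin, ← IntermediateField.adjoin.finrank hint, adjoin_crossZeta_eq_top L m,
      IntermediateField.finrank_top']
  have heq : cyclotomic m L = minpoly L (crossZeta L m) := by
    refine Polynomial.eq_of_monic_of_dvd_of_natDegree_le (minpoly.monic hint)
      (cyclotomic.monic m L) hdvd ?_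
    rw [hdeg, natDegree_cyclotomic, Nat.totient_prime hm.out]
  rw [heq]
  exact minpoly.irreducible hint

/-- extension of `σ` to `M` with prescribed action on `ζ` -/
theorem exists_crossLift [IsGalois ℚ L] (hdisc : ¬ (m : ℤ) ∣ discr L) (σ : L ≃ₐ[ℚ] L)
    (t : (ZMod m)ˣ) :
    ∃ g : CrossField L m ≃ₐ[ℚ] CrossField L m,
      (∀ x : L, g (algebraMap L (CrossField L m) x) = algebraMap L (CrossField L m) (σ x)) ∧
      g (crossZeta L m) = crossZeta L m ^ (t : ZMod m).val := by
  haveI := normal_crossField L m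
  have hirr := irreducible_cyclotomic_of_not_dvd_discr L m hdisc
  set σ' : CrossField L m ≃ₐ[ℚ] CrossField L m := σ.liftNormal (CrossField L m) with hσ'
  have hμ0 : IsPrimitiveRoot (crossZeta L m ^ (t : ZMod m).val) m :=
    (crossZeta_spec L m).pow_of_coprime _ (ZMod.val_coe_unit_coprime t)
  have hμ : IsPrimitiveRoot (σ'.symm (crossZeta L m ^ (t : ZMod m).val)) m :=
    hμ0.map_of_injective σ'.symm.injective
  set h : CrossField L m ≃ₐ[L] CrossField L m := IsCyclotomicExtension.fromZetaAut hμ hirr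
    with hh
  have hspec : h (crossZeta L m) = σ'.symm (crossZeta L m ^ (t : ZMod m).val) :=
    IsCyclotomicExtension.fromZetaAut_spec hμ hirr
  refine ⟨(h.restrictScalars ℚ).trans σ', fun x => ?_, ?_⟩
  · rw [AlgEquiv.trans_apply, AlgEquiv.restrictScalars_apply, h.commutes]
    exact σ.liftNormal_commutes (CrossField L m) x
  · rw [AlgEquiv.trans_apply, AlgEquiv.restrictScalars_apply, hspec, AlgEquiv.apply_symm_apply]

/-- the cyclic group generated by the crossing lift acts faithfully on `ζ` -/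
theorem crossLift_faithful (σ : L ≃ₐ[ℚ] L) (t : (ZMod m)ˣ) (ht : orderOf σ ∣ orderOf t)
    (g : CrossField L m ≃ₐ[ℚ] CrossField L m)
    (hg1 : ∀ x : L, g (algebraMap L (CrossField L m) x) = algebraMap L (CrossField L m) (σ x))
    (hg2 : g (crossZeta L m) = crossZeta L m ^ (t : ZMod m).val) :
    ∀ k : ℕ, (g ^ k) (crossZeta L m) = crossZeta L m → g ^ k = 1 := by
  intro k hk
  have hζ := crossZeta_spec L m
  haveI : Fact (1 < m) := ⟨hm.out.one_lt⟩
  have hord : orderOf (crossZeta L m) = m := hζ.eq_orderOf.symm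
  have hpow : ∀ j : ℕ, (g ^ j) (crossZeta L m) =
      crossZeta L m ^ ((t ^ j : (ZMod m)ˣ) : ZMod m).val := by
    intro j
    induction j with
    | zero => simp [ZMod.val_one]
    | succ j ih =>
      have e1 : (g ^ (j + 1)) (crossZeta L m) = (g ^ j) (g (crossZeta L m)) := by
        rw [pow_succ, AlgEquiv.mul_apply]
      have e2 := pow_mod_orderOf (crossZeta L m)
        (((t ^ j : (ZMod m)ˣ) : ZMod m).val * ((t : (ZMod m)ˣ) : ZMod m).val)
      rw [hord] at e2
      rw [e1, hg2, map_pow, ih, ← pow_mul, pow_succ t j, Units.val_mul, ZMod.val_mul, e2]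
  have h1 : ((t ^ k : (ZMod m)ˣ) : ZMod m).val = 1 := by
    have h2 := hpow k
    rw [hk] at h2
    have h3 : crossZeta L m ^ 1 = crossZeta L m ^ ((t ^ k : (ZMod m)ˣ) : ZMod m).val := by
      rw [pow_one]; exact h2
    exact (hζ.pow_inj hm.out.one_lt (ZMod.val_lt _) h3).symm
  have h4 : t ^ k = 1 := by
    apply Units.ext
    apply ZMod.val_injective
    rw [h1, Units.val_one, ZMod.val_one]
  have h5 : σ ^ k = 1 := orderOf_dvd_iff_pow_eq_one.mp (ht.trans (orderOf_dvd_of_pow_eq_one h4))
  have hgpow : ∀ (j : ℕ) (x : L), (g ^ j) (algebraMap L (CrossField L m) x) =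
      algebraMap L (CrossField L m) ((σ ^ j) x) := by
    intro j
    induction j with
    | zero => intro x; simp
    | succ j ih =>
      intro x
      rw [pow_succ, AlgEquiv.mul_apply, hg1, ih, pow_succ, AlgEquiv.mul_apply]
  ext y
  rw [AlgEquiv.one_apply]
  have hy : y ∈ Algebra.adjoin L ({crossZeta L m} : Set (CrossField L m)) := by
    rw [IsCyclotomicExtension.adjoin_primitive_root_eq_top hζ]
    trivial
  induction hy using Algebra.adjoin_induction with
  | mem z hz =>
    rw [Set.mem_singleton_iff] at hz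
    subst hz
    exact hk
  | algebraMap r => rw [hgpow, h5, AlgEquiv.one_apply]
  | add _ _ _ _ hx hy => rw [map_add, hx, hy]
  | mul _ _ _ _ hx hy => rw [map_mul, hx, hy]

end Construct

section Restrict

variable {L M : Type} [Field L] [NumberField L] [Field M] [NumberField M] [Algebra L M]

/-- an arithmetic Frobenius of `M` restricts to an arithmetic Frobenius of `L` -/
theorem isArithFrobAt_comap (σ : L ≃ₐ[ℚ] L) (g : M ≃ₐ[ℚ] M)
    (hg : ∀ x : L, g (algebraMap L M x) = algebraMap L M (σ x)) (P' : Ideal (𝓞 M))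
    (h : IsArithFrobAt ℤ g P') :
    IsArithFrobAt ℤ σ (P'.comap (algebraMap (𝓞 L) (𝓞 M))) := by
  intro x
  have hunder : (P'.comap (algebraMap (𝓞 L) (𝓞 M))).under ℤ = P'.under ℤ := by
    rw [Ideal.under_def, Ideal.under_def, Ideal.comap_comap]
    congr 1
    exact RingHom.ext_int _ _
  have h1 := h (algebraMap (𝓞 L) (𝓞 M) x)
  show (MulSemiringAction.toAlgHom ℤ (𝓞 L) σ) x -
    x ^ Nat.card (ℤ ⧸ (P'.comap (algebraMap (𝓞 L) (𝓞 M))).under ℤ) ∈ _
  rw [hunder, Ideal.mem_comap, map_sub, map_pow]
  have h2 : algebraMap (𝓞 L) (𝓞 M) ((MulSemiringAction.toAlgHom ℤ (𝓞 L) σ) x) =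
      (MulSemiringAction.toAlgHom ℤ (𝓞 M) g) (algebraMap (𝓞 L) (𝓞 M) x) := by
    apply RingOfIntegers.ext
    show algebraMap L M (σ (x : L)) = g (algebraMap L M (x : L))
    rw [hg]
  rw [h2]
  exact h1

end Restrict

/-- **CROSS**: Chebotarev's field-crossing step. -/
theorem cross : Spec.CrossStatement := by
  intro hD hC L _ _ _ σ S
  obtain ⟨B, hB⟩ := hD L
  -- the auxiliary prime `m`
  obtain ⟨m, hmp, hmgt, hmod⟩ :=
    Nat.exists_prime_gt_modEq_one (k := orderOf σ) (discr L).natAbs (orderOf_pos σ).ne'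
  haveI : Fact m.Prime := ⟨hmp⟩
  have hdisc : ¬ (m : ℤ) ∣ discr L := by
    intro hdvd
    have h1 : m ∣ (discr L).natAbs := Int.natCast_dvd.mp hdvd
    have h2 : (discr L).natAbs ≠ 0 := Int.natAbs_ne_zero.mpr (discr_ne_zero L)
    exact absurd (Nat.le_of_dvd (Nat.pos_of_ne_zero h2) h1) (not_le.mpr hmgt)
  -- a generator of `(ℤ/m)ˣ`
  haveI : IsCyclic (ZMod m)ˣ := ZMod.isCyclic_units_prime hmp
  obtain ⟨t, ht⟩ := isCyclic_iff_exists_orderOf_eq_natCard.mp (inferInstance : IsCyclic (ZMod m)ˣ)
  have hcard : Nat.card (ZMod m)ˣ = m - 1 := by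
    rw [Nat.card_eq_fintype_card, ZMod.card_units_eq_totient, Nat.totient_prime hmp]
  have hdvd : orderOf σ ∣ orderOf t := by
    rw [ht, hcard]
    exact (Nat.modEq_iff_dvd' hmp.one_lt.le).mp hmod.symm
  obtain ⟨g, hg1, hg2⟩ := exists_crossLift L m hdisc σ t
  haveI := isGalois_crossField L m
  obtain ⟨p, P', hp, hpS, hP', hpP', -, hfrob⟩ :=
    hC (CrossField L m) m (crossZeta L m) hmp.pos (crossZeta_spec L m) g
      (crossLift_faithful L m σ t hdvd g hg1 hg2) (S ∪ B)
  have hpS' : p ∉ S := fun h => hpS (Finset.mem_union_left _ h)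
  have hpB : p ∉ B := fun h => hpS (Finset.mem_union_right _ h)
  set P : Ideal (𝓞 L) := P'.comap (algebraMap (𝓞 L) (𝓞 (CrossField L m))) with hP
  have hPprime : P.IsPrime := Ideal.comap_isPrime _ _
  have hpP : (p : 𝓞 L) ∈ P := by
    rw [hP, Ideal.mem_comap, map_natCast]
    exact hpP'
  exact ⟨p, P, hp, hpS', hPprime, hpP, (hB p hp hpB P hPprime hpP).1,
    isArithFrobAt_comap σ g hg1 P' hfrob⟩

end Fermat.Agent.Lib.Cheb.H236
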